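/-
S56lib / GU / Abstract (lead).  **WP3b, abstract part.**  `Γ` a group, `X` a `ℤ[Γ]`-module, `Ω` a finite
`Γ`-set and `u : Ω → X` an equivariant family such that `ℤ[Ω] → X × ℤ`, `a ↦ (∑ a_w u_w, ∑ a_w)` is
injective with finite cokernel (helper2's isogeny form of the `S`-unit theorem).  Then `X[p]`, `X/p` are
finite and, for every additive invariant `ψ`,  `δ_ψ(X) = ψ(𝔽_p) − ψ(𝔽_p[Ω])`.
-/
import Mathlib
import Fermat.Agent.S56lib.Euler.Perm
import Fermat.Agent.S56lib.EulerG.Minkowski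

set_option autoImplicit false
set_option linter.unusedSectionVars false
set_option linter.style.haveILetI false

noncomputable section

namespace Fermat.Agent.S56lib.GU

open Fermat.Agent.S56lib.Euler Fermat.Agent.S56lib.EulerG Function

section FG

/-- a finitely generated abelian group has finite `p`-torsion and finite `B/p` -/
theorem pGood_of_fg {R : Type} [Ring R] (p : ℕ) (hp : 0 < p) (B : Type) [AddCommGroup B] [Module R B]
    [Module.Finite ℤ B] : PGood R p B := by
  constructor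
  · -- the torsion
    let N : Submodule ℤ B := (tors R p B).toAddSubgroup.toIntSubmodule
    haveI : Module.Finite ℤ N := Module.Finite.of_injective N.subtype N.injective_subtype
    have htor : Module.IsTorsion ℤ N := by
      intro x
      refine ⟨⟨(p : ℤ), mem_nonZeroDivisors_of_ne_zero (by exact_mod_cast hp.ne')⟩, ?_⟩
      apply Subtype.ext
      have hx : p • (x : B) = 0 := x.2
      show (p : ℤ) • (x : B) = 0
      rw [natCast_zsmul]
      exact hx
    have : Finite N := Module.finite_of_fg_torsion N htor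
    exact this
  · -- the cotorsion
    let N : Submodule ℤ B := (LinearMap.range (mulP R p B)).toAddSubgroup.toIntSubmodule
    have htor : Module.IsTorsion ℤ (B ⧸ N) := by
      intro x
      refine ⟨⟨(p : ℤ), mem_nonZeroDivisors_of_ne_zero (by exact_mod_cast hp.ne')⟩, ?_⟩
      obtain ⟨b, rfl⟩ := Submodule.Quotient.mk_surjective _ x
      show (p : ℤ) • (Submodule.Quotient.mk b : B ⧸ N) = 0
      rw [← Submodule.Quotient.mk_smul, Submodule.Quotient.mk_eq_zero, natCast_zsmul]
      exact ⟨b, rfl⟩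
    have hfin : Finite (B ⧸ N) := Module.finite_of_fg_torsion _ htor
    exact hfin

end FG

variable {Γ : Type} [Group Γ] (p : ℕ) [hp : Fact p.Prime]
  {X : Type} [AddCommGroup X] [Module (ZG Γ) X]
  {Ω : Type} [MulAction Γ Ω] [Fintype Ω]

/-- the trivial `ℤ[Γ]`-module `ℤ` -/
abbrev TrivZ (Γ : Type) [Group Γ] : Type := PermMod Γ ℤ (Γ ⧸ (⊤ : Subgroup Γ))

instance : Subsingleton (Γ ⧸ (⊤ : Subgroup Γ)) := QuotientGroup.subsingleton_quotient_top

/-- evaluation at the point: `TrivZ Γ ≃+ ℤ` -/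
def trivZEquiv : TrivZ Γ ≃+ ℤ where
  toFun c := PermMod.fn c (QuotientGroup.mk 1)
  invFun n := PermMod.fn.symm (fun _ => n)
  left_inv c := by
    apply PermMod.ext
    intro x
    rw [AddEquiv.apply_symm_apply, Subsingleton.elim x (QuotientGroup.mk 1)]
  right_inv n := by simp
  map_add' c c' := by simp

lemma gsm_trivZ (g : Γ) (c : TrivZ Γ) : gsm g c = c := by
  apply PermMod.ext
  intro x
  rw [PermMod.fn_gsm, Subsingleton.elim (g⁻¹ • x) x]

lemma gsm_sum' {V : Type} [AddCommGroup V] [Module (ZG Γ) V] {ι : Type*} (s : Finset ι) (g : Γ)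
    (f : ι → V) : gsm g (∑ i ∈ s, f i) = ∑ i ∈ s, gsm g (f i) := by
  unfold gsm
  exact Finset.smul_sum

variable (u : Ω → X) (hu : ∀ (g : Γ) (w : Ω), u (g • w) = gsm g (u w))

/-- the additive map `ℤ[Ω] → X × ℤ` as a map of `ℤ[Γ]`-modules -/
def isogLin : PermMod Γ ℤ Ω →ₗ[ZG Γ] X × TrivZ Γ :=
  linOfComm
    (((AddMonoidHom.prodMap (AddMonoidHom.id X) (trivZEquiv (Γ := Γ)).symm.toAddMonoidHom).comp
      (isogMap u).toAddMonoidHom).comp PermMod.fn.toAddMonoidHom)
    (fun g a => by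
      have hbij : Function.Bijective (fun w : Ω => g • w) := MulAction.bijective g
      show ((isogMap u (PermMod.fn (gsm g a))).1, trivZEquiv.symm (isogMap u (PermMod.fn (gsm g a))).2)
        = gsm g ((isogMap u (PermMod.fn a)).1, trivZEquiv.symm (isogMap u (PermMod.fn a)).2)
      rw [isogMap_apply, isogMap_apply]
      refine Prod.ext ?_ ?_
      · show ∑ w, PermMod.fn (gsm g a) w • u w = gsm g (∑ w, PermMod.fn a w • u w)
        rw [← (Equiv.ofBijective _ hbij).sum_comp, gsm_sum']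
        refine Finset.sum_congr rfl fun w _ => ?_
        rw [Equiv.ofBijective_apply, PermMod.fn_gsm, inv_smul_smul, hu, gsm_zsmul]
      · show trivZEquiv.symm (∑ w, PermMod.fn (gsm g a) w) = gsm g (trivZEquiv.symm (∑ w, PermMod.fn a w))
        rw [gsm_trivZ, ← (Equiv.ofBijective _ hbij).sum_comp]
        congr 1
        refine Finset.sum_congr rfl fun w _ => ?_
        rw [Equiv.ofBijective_apply, PermMod.fn_gsm, inv_smul_smul])

lemma isogLin_apply (a : PermMod Γ ℤ Ω) :
    isogLin u hu a = ((isogMap u (PermMod.fn a)).1, trivZEquiv.symm (isogMap u (PermMod.fn a)).2) :=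
  rfl

/-- `X × ℤ ≃ X × TrivZ` over `ℤ` -/
def prodTrivEquiv : (X × ℤ) ≃ₗ[ℤ] (X × TrivZ Γ) :=
  ((AddEquiv.refl X).prodCongr (trivZEquiv (Γ := Γ)).symm).toIntLinearEquiv

lemma prodTrivEquiv_apply (y : X × ℤ) :
    prodTrivEquiv (Γ := Γ) y = (y.1, trivZEquiv.symm y.2) := rfl

lemma isogLin_eq (a : PermMod Γ ℤ Ω) :
    isogLin u hu a = prodTrivEquiv (Γ := Γ) (isogMap u (PermMod.fn a)) := rfl

lemma isogLin_injective (hinj : Injective (isogMap u)) : Injective (isogLin u hu) := by
  intro a b h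
  rw [isogLin_eq, isogLin_eq] at h
  exact PermMod.fn.injective (hinj ((prodTrivEquiv (Γ := Γ) (X := X)).injective h))

lemma map_range_isogMap :
    (LinearMap.range (isogMap u)).map (prodTrivEquiv (Γ := Γ) (X := X)).toLinearMap =
      (LinearMap.range (isogLin u hu)).restrictScalars ℤ := by
  ext y
  constructor
  · rintro ⟨_, ⟨a, rfl⟩, rfl⟩
    exact ⟨PermMod.fn.symm a, by rw [isogLin_eq, AddEquiv.apply_symm_apply]; rfl⟩
  · rintro ⟨a, rfl⟩
    exact ⟨isogMap u (PermMod.fn a), ⟨PermMod.fn a, rfl⟩, (isogLin_eq u hu a).symm⟩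

lemma finite_quotient_isogLin (hfin : Finite ((X × ℤ) ⧸ LinearMap.range (isogMap u))) :
    Finite ((X × TrivZ Γ) ⧸ LinearMap.range (isogLin u hu)) := by
  have e1 := Submodule.Quotient.equiv (LinearMap.range (isogMap u))
    ((LinearMap.range (isogLin u hu)).restrictScalars ℤ) (prodTrivEquiv (Γ := Γ) (X := X))
    (map_range_isogMap u hu)
  have : Finite ((X × TrivZ Γ) ⧸ (LinearMap.range (isogLin u hu)).restrictScalars ℤ) :=
    Finite.of_equiv _ e1.toEquiv
  exact Finite.of_equiv _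
    (Submodule.Quotient.restrictScalarsEquiv ℤ (LinearMap.range (isogLin u hu))).toEquiv

/-- `X` is finitely generated -/
lemma finite_of_isogeny (hfin : Finite ((X × ℤ) ⧸ LinearMap.range (isogMap u))) :
    Module.Finite ℤ X := by
  haveI : Module.Finite ℤ (LinearMap.range (isogMap u)) := Module.Finite.range _
  haveI : Module.Finite ℤ ((X × ℤ) ⧸ LinearMap.range (isogMap u)) := Module.Finite.of_finite
  haveI : Module.Finite ℤ (X × ℤ) := Module.Finite.of_submodule_quotient (LinearMap.range (isogMap u))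
  exact Module.Finite.of_surjective (LinearMap.fst ℤ X ℤ) LinearMap.fst_surjective

instance finite_trivZ : Module.Finite ℤ (TrivZ Γ) :=
  Module.Finite.of_surjective (trivZEquiv (Γ := Γ)).symm.toIntLinearEquiv.toLinearMap
    (trivZEquiv (Γ := Γ)).symm.surjective

include hu in
/-- **WP3b, abstract form.** -/
theorem delta_of_isogeny (hinj : Injective (isogMap u))
    (hfin : Finite ((X × ℤ) ⧸ LinearMap.range (isogMap u))) :
    PGood (ZG Γ) p X ∧ ∀ ψ : AddInvariant (ZG Γ) p,
      delta (ZG Γ) p X ψ =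
        ψ.val (PermMod Γ (ZMod p) (Γ ⧸ (⊤ : Subgroup Γ))) - ψ.val (PermMod Γ (ZMod p) Ω) := by
  haveI hX : Module.Finite ℤ X := finite_of_isogeny u hfin
  haveI g1 : PGood (ZG Γ) p X := pGood_of_fg p hp.out.pos X
  haveI g2 : PGood (ZG Γ) p (X × TrivZ Γ) := pGood_of_fg p hp.out.pos _
  haveI g3 : PGood (ZG Γ) p (TrivZ Γ) := pGood_of_fg p hp.out.pos _
  haveI g4 : PGood (ZG Γ) p (PermMod Γ ℤ Ω) :=
    pGood_of_tors_eq_bot _ (PermMod.tors_eq_bot p Ω)
  haveI g5 : Finite ((X × TrivZ Γ) ⧸ LinearMap.range (isogLin u hu)) :=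
    finite_quotient_isogLin u hu hfin
  refine ⟨g1, fun ψ => ?_⟩
  -- the isogeny
  have h1 := delta_add ψ (isogLin u hu) (LinearMap.range (isogLin u hu)).mkQ
    (isogLin_injective u hu hinj) (LinearMap.range (isogLin u hu)).mkQ_surjective
    (LinearMap.exact_map_mkQ_range (isogLin u hu))
  rw [delta_eq_zero_of_finite ψ ((X × TrivZ Γ) ⧸ LinearMap.range (isogLin u hu)), add_zero, delta_of_tors_eq_bot ψ _ (PermMod.tors_eq_bot p Ω),
    ψ.iso _ _ (PermMod.cotEquiv (Γ := Γ) p Ω)] at h1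
  -- the splitting `X × ℤ`
  have h2 := delta_add ψ (LinearMap.inl (ZG Γ) X (TrivZ Γ)) (LinearMap.snd (ZG Γ) X (TrivZ Γ))
    LinearMap.inl_injective LinearMap.snd_surjective (by
      intro y
      constructor
      · intro hy
        exact ⟨y.1, Prod.ext rfl hy.symm⟩
      · rintro ⟨x, rfl⟩
        rfl)
  rw [delta_of_tors_eq_bot ψ (TrivZ Γ) (PermMod.tors_eq_bot p _),
    ψ.iso _ _ (PermMod.cotEquiv (Γ := Γ) p (Γ ⧸ (⊤ : Subgroup Γ)))] at h2
  linarith

end Fermat.Agent.S56lib.GU
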