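/-
S56lib / GU / Field (lead).  **WP3b, the field cut out by an open normal subgroup of `G_S`.**
For `π : G_ℚ →* Γ` onto with kernel open for `basisS S`: the fixed field `L = kerField π` is a finite
Galois extension of `ℚ` unramified outside `S`, `Gal(ℚ̄/L) = ker π`, and `Γ ≃* Gal(L/ℚ)` compatibly with
`π` and the restriction map.
-/
import Mathlib
import Fermat.Agent.S55lib.GlobDual.JSCoind
import Fermat.Agent.S55lib.Iface.ModulesLevel

set_option autoImplicit false
set_option linter.unusedSectionVars false
set_option linter.style.haveILetI false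

noncomputable section

namespace Fermat.Agent.S56lib.GU

open Fermat.Agent.S55lib Function

variable {S : Finset Nat.Primes} {Γ : Type} [Group Γ] (π : GQ →* Γ)

/-- the field cut out by `ker π` -/
def kerField : FieldQ := IntermediateField.fixedField π.ker

variable {π}

lemma exists_level_le_ker (hopen : (basisS S).IsOpen π.ker) :
    ∃ F : FieldQ, F.IsUnramifiedOutside S ∧ Normal ℚ F ∧ F.fixingSubgroup ≤ π.ker := by
  obtain ⟨U, ⟨F, hF, hN, rfl⟩, hle⟩ := hopen
  exact ⟨F, hF, hN, hle⟩

lemma ker_isOpen (hopen : (basisS S).IsOpen π.ker) : IsOpen (π.ker : Set GQ) := by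
  obtain ⟨F, hF, -, hle⟩ := exists_level_le_ker hopen
  haveI := hF.1
  exact Subgroup.isOpen_mono hle (IntermediateField.fixingSubgroup_isOpen F)

lemma fixingSubgroup_kerField (hopen : (basisS S).IsOpen π.ker) :
    (kerField π).fixingSubgroup = π.ker := by
  have : IsGalois ℚ (AlgebraicClosure ℚ) := ⟨⟩
  let Kc : ClosedSubgroup GQ := ⟨π.ker, (OpenSubgroup.isClosed ⟨π.ker, ker_isOpen hopen⟩ : _)⟩
  exact InfiniteGalois.fixingSubgroup_fixedField Kc

lemma kerField_le {F : FieldQ} (hle : F.fixingSubgroup ≤ π.ker) : kerField π ≤ F := by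
  have : IsGalois ℚ (AlgebraicClosure ℚ) := ⟨⟩
  have h1 : IntermediateField.fixedField F.fixingSubgroup = F :=
    InfiniteGalois.fixedField_fixingSubgroup F
  rw [← h1]
  exact IntermediateField.fixedField_antitone hle

lemma kerField_isUnramifiedOutside (hopen : (basisS S).IsOpen π.ker) :
    (kerField π).IsUnramifiedOutside S := by
  obtain ⟨F, hF, -, hle⟩ := exists_level_le_ker hopen
  exact hF.of_le (kerField_le hle)

lemma kerField_finiteDimensional (hopen : (basisS S).IsOpen π.ker) :
    FiniteDimensional ℚ (kerField π) := (kerField_isUnramifiedOutside hopen).1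

lemma kerField_isGalois (hopen : (basisS S).IsOpen π.ker) : IsGalois ℚ (kerField π) := by
  have : IsGalois ℚ (AlgebraicClosure ℚ) := ⟨⟩
  change @IsGalois ℚ _ (kerField π) _ (IntermediateField.algebra' _)
  rw [← InfiniteGalois.normal_iff_isGalois, fixingSubgroup_kerField hopen]
  exact MonoidHom.normal_ker π

lemma kerField_normal (hopen : (basisS S).IsOpen π.ker) : Normal ℚ (kerField π) :=
  haveI := kerField_isGalois hopen
  inferInstance

lemma mem_kerField_iff (x : Qbar) : x ∈ kerField π ↔ ∀ u ∈ π.ker, u x = x := by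
  constructor
  · intro hx u hu
    exact hx ⟨u, hu⟩
  · intro hx u
    exact hx u.1 u.2

section Iso

variable (L : FieldQ) [Normal ℚ L] (hπ : Surjective π) (hker : L.fixingSubgroup = π.ker)

lemma resL_ker_eq : (S55lib.resL L).ker = L.fixingSubgroup := by
  ext s
  rw [MonoidHom.mem_ker, resL_eq_one_iff]

/-- `Γ ≃* Gal(L/ℚ)` for `L` the field cut out by `ker π` -/
def gammaEquiv : Γ ≃* (L ≃ₐ[ℚ] L) :=
  (QuotientGroup.quotientKerEquivOfSurjective π hπ).symm.trans
    ((QuotientGroup.quotientMulEquivOfEq ((resL_ker_eq L).trans hker).symm).trans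
      (QuotientGroup.quotientKerEquivOfSurjective (S55lib.resL L) (resL_surjective L)))

lemma gammaEquiv_apply (g : GQ) : gammaEquiv L hπ hker (π g) = S55lib.resL L g := by
  unfold gammaEquiv
  have h1 : (QuotientGroup.quotientKerEquivOfSurjective π hπ).symm (π g) = QuotientGroup.mk g := by
    rw [MulEquiv.symm_apply_eq]
    rfl
  rw [MulEquiv.trans_apply, h1, MulEquiv.trans_apply]
  rfl

end Iso

end Fermat.Agent.S56lib.GU
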