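/-
S56lib / GU / Units (lead).  **WP3b, the `S`-units.**  For `π : G_ℚ →* Γ` onto, `L` the field cut out by
`ker π` (finite Galois, unramified outside `S`), `T` the primes of `L` above `S`:
the `ℤ[Γ]`-module `(E_S)^{ker π}` (`= Euler.InvMod π hπ (ESrep S)`) is `𝒪_{L,T}^×` (`sUnit T`), compatibly
with `Γ ≃ Gal(L/ℚ)`.
-/
import Mathlib
import Fermat.Agent.S56lib.GU.Field
import Fermat.Agent.S56lib.Euler.InvMod
import Fermat.Agent.S56lib.EulerG.SUnitIsog
import Fermat.Agent.S55lib.FirstIneq.ClassGroupFI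
import Fermat.Agent.S55lib.Places.SUnit

set_option autoImplicit false
set_option linter.unusedSectionVars false
set_option linter.style.haveILetI false

noncomputable section

namespace Fermat.Agent.S56lib.GU

open Fermat.Agent.S55lib Fermat.Agent.S56lib.Euler Fermat.Agent.S56lib.EulerG Function
  NumberField IsDedekindDomain Fermat.Agent.S55lib.FirstIneq

/-- finite subextensions of `ℚ̄` are number fields -/
instance numberField_fieldQ (L : FieldQ) [FiniteDimensional ℚ L] : NumberField ↥L :=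
  { to_charZero := inferInstance, to_finiteDimensional := inferInstance }

section SUnit

variable (S : Finset Nat.Primes) (L : FieldQ) [FiniteDimensional ℚ L]

/-- the primes of `L` above `S` -/
def TL : Finset (HeightOneSpectrum (𝓞 L)) := primesAbove L S

variable {S L}

lemma mem_TL {w : HeightOneSpectrum (𝓞 L)} :
    w ∈ TL S L ↔ ∃ q ∈ S, (((q : Nat.Primes) : ℕ) : 𝓞 L) ∈ w.asIdeal := mem_primesAbove

lemma tStable : TStable ℚ (TL S L) := by
  intro σ w hw
  obtain ⟨q, hq, hqw⟩ := mem_TL.1 hw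
  refine mem_TL.2 ⟨q, hq, ?_⟩
  rw [mem_finAct, map_natCast]
  exact hqw

/-- `q ∉ S` and `ι : L → ℚ̄_q` ⇒ the prime of `ι` is not in `T` -/
lemma primeOf_not_mem_TL {q : ℕ} [Fact q.Prime] (hq : (⟨q, Fact.out⟩ : Nat.Primes) ∉ S)
    (ι : L →ₐ[ℚ] PadicAlgCl q) : Places.primeOf ι ∉ TL S L := by
  intro h
  obtain ⟨q₁, hq₁, hmem⟩ := mem_TL.1 h
  have h2 : ((q : ℕ) : 𝓞 L) ∈ (Places.primeOf ι).asIdeal := Places.natCast_mem_idealOf ι
  have := natPrime_eq_of_mem q₁.2 (Fact.out : q.Prime) hmem h2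
  apply hq
  have h3 : q₁ = ⟨q, Fact.out⟩ := Subtype.ext this
  rw [← h3]
  exact hq₁

/-- `primeOf ι ∉ T` ⇒ `q ∉ S` -/
lemma not_mem_of_primeOf_not_mem {q : ℕ} [Fact q.Prime] (ι : L →ₐ[ℚ] PadicAlgCl q)
    (h : Places.primeOf ι ∉ TL S L) : (⟨q, Fact.out⟩ : Nat.Primes) ∉ S := by
  intro hq
  exact h (mem_TL.2 ⟨⟨q, Fact.out⟩, hq, Places.natCast_mem_idealOf ι⟩)

variable [Normal ℚ L]

/-- **`S`-units of `ℚ̄` lying in `L` are the `T`-units of `L`.** -/
theorem isSUnit_iff_mem_sUnit (x : (↥L)ˣ) :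
    IsSUnit S (((x : (↥L)ˣ) : ↥L) : Qbar) ↔ x ∈ sUnit (TL S L) := by
  rw [sUnit, Places.mem_unit_iff]
  constructor
  · intro h q _ ι hι
    obtain ⟨g, rfl⟩ := embOf_surjective L q ι
    rw [embOf_apply]
    have hq := not_mem_of_primeOf_not_mem _ hι
    exact h ⟨q, Fact.out⟩ hq ((padicEmbedding q).comp (g : Qbar →ₐ[ℚ] Qbar))
  · intro h q hq ι'
    haveI : Fact ((q : ℕ)).Prime := ⟨q.2⟩
    exact h (q : ℕ) (ι'.comp L.val) (primeOf_not_mem_TL hq _)

end SUnit

section Transport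

variable {S : Finset Nat.Primes} {Γ : Type} [Group Γ] (π : GQ →* Γ) (hπ : Surjective π)

/-- the underlying element of `E_S` -/
def eunit (x : InvMod π hπ (ESrep S)) : ES S :=
  Additive.toMul (((InvMod.fn π hπ (ESrep S) x : invSub π (ESrep S)) : (ESrep S).V) :
    Additive (ES S))

/-- the underlying element of `ℚ̄` -/
def evalQ (x : InvMod π hπ (ESrep S)) : Qbar := ((eunit π hπ x : ES S) : Qbarˣ)

variable {π hπ}

lemma evalQ_ne_zero (x : InvMod π hπ (ESrep S)) : evalQ π hπ x ≠ 0 := Units.ne_zero _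

@[simp] lemma eunit_add (x y : InvMod π hπ (ESrep S)) :
    eunit π hπ (x + y) = eunit π hπ x * eunit π hπ y := by
  unfold eunit
  rw [map_add]
  rfl

@[simp] lemma evalQ_add (x y : InvMod π hπ (ESrep S)) :
    evalQ π hπ (x + y) = evalQ π hπ x * evalQ π hπ y := by
  unfold evalQ
  rw [eunit_add]
  rfl

lemma evalQ_ext {x y : InvMod π hπ (ESrep S)} (h : evalQ π hπ x = evalQ π hπ y) : x = y := by
  apply InvMod.ext
  have h1 : ((eunit π hπ x : ES S) : Qbarˣ) = (eunit π hπ y : ES S) := Units.ext h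
  have h2 : eunit π hπ x = eunit π hπ y := Subtype.ext h1
  exact Additive.toMul.injective h2

lemma evalQ_gsm (g : GQ) (x : InvMod π hπ (ESrep S)) :
    evalQ π hπ (gsm (π g) x) = g (evalQ π hπ x) := by
  have h := InvMod.fn_gsm (hπ := hπ) g x
  unfold evalQ eunit
  rw [h]
  rfl

lemma evalQ_fixed (x : InvMod π hπ (ESrep S)) (u : GQ) (hu : u ∈ π.ker) :
    u (evalQ π hπ x) = evalQ π hπ x := by
  have h := (InvMod.fn π hπ (ESrep S) x).2 u hu
  have h2 := congrArg (fun a : Additive (ES S) =>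
    (((Additive.toMul a : ES S) : Qbarˣ) : Qbar)) h
  exact h2

lemma isSUnit_evalQ (x : InvMod π hπ (ESrep S)) : IsSUnit S (evalQ π hπ x) :=
  (eunit π hπ x).2.1

end Transport

section Equiv

variable {S : Finset Nat.Primes} {Γ : Type} [Group Γ] {π : GQ →* Γ} {hπ : Surjective π}
  (L : FieldQ) [FiniteDimensional ℚ L] [Normal ℚ L] (hker : L.fixingSubgroup = π.ker)

include hker in
lemma evalQ_mem (x : InvMod π hπ (ESrep S)) : evalQ π hπ x ∈ L := by
  have : IsGalois ℚ (AlgebraicClosure ℚ) := ⟨⟩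
  have h1 : IntermediateField.fixedField L.fixingSubgroup = L :=
    InfiniteGalois.fixedField_fixingSubgroup L
  rw [← h1]
  intro u
  exact evalQ_fixed x u.1 (hker ▸ u.2)

/-- the unit of `L` underlying `x` -/
def lunit (x : InvMod π hπ (ESrep S)) : (↥L)ˣ :=
  Units.mk0 ⟨evalQ π hπ x, evalQ_mem L hker x⟩
    (fun h => evalQ_ne_zero x (congrArg Subtype.val h))

lemma coe_lunit (x : InvMod π hπ (ESrep S)) :
    (((lunit L hker x : (↥L)ˣ) : ↥L) : Qbar) = evalQ π hπ x := rfl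

lemma lunit_mem (x : InvMod π hπ (ESrep S)) : lunit L hker x ∈ sUnit (TL S L) :=
  (isSUnit_iff_mem_sUnit _).1 (isSUnit_evalQ x)

/-- `(E_S)^{ker π} → 𝒪_{L,T}^×` -/
def toSUnit : InvMod π hπ (ESrep S) →+ Additive (sUnit (TL S L)) where
  toFun x := Additive.ofMul ⟨lunit L hker x, lunit_mem L hker x⟩
  map_zero' := by
    apply sUnit_ext
    apply Subtype.ext
    show evalQ π hπ (0 : InvMod π hπ (ESrep S)) = 1
    have h := evalQ_add (0 : InvMod π hπ (ESrep S)) 0
    rw [add_zero] at h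
    have h0 := evalQ_ne_zero (0 : InvMod π hπ (ESrep S))
    exact (mul_eq_left₀ h0).1 h.symm
  map_add' x y := by
    apply sUnit_ext
    apply Subtype.ext
    show evalQ π hπ (x + y) = evalQ π hπ x * evalQ π hπ y
    exact evalQ_add x y

lemma coe_toSUnit (x : InvMod π hπ (ESrep S)) :
    ((((toSUnit L hker x).toMul : sUnit (TL S L)) : (↥L)ˣ) : ↥L) =
      (⟨evalQ π hπ x, evalQ_mem L hker x⟩ : ↥L) := rfl

lemma toSUnit_injective : Injective (toSUnit (S := S) (hπ := hπ) L hker) := by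
  intro x y h
  apply evalQ_ext
  have h1 := congrArg (fun z : Additive (sUnit (TL S L)) =>
    (((((z.toMul : sUnit (TL S L)) : (↥L)ˣ) : ↥L) : Qbar))) h
  exact h1

lemma toSUnit_surjective (hLS : L.IsUnramifiedOutside S) :
    Surjective (toSUnit (S := S) (hπ := hπ) L hker) := by
  intro y
  set y₀ : (↥L)ˣ := ((y.toMul : sUnit (TL S L)) : (↥L)ˣ) with hy₀
  have hy₀mem : y₀ ∈ sUnit (TL S L) := (y.toMul : sUnit (TL S L)).2
  let z : Qbarˣ := Units.map (algebraMap ↥L Qbar : ↥L →* Qbar) y₀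
  have hz : (z : Qbar) = ((y₀ : ↥L) : Qbar) := rfl
  have hzES : z ∈ ES S :=
    ⟨by rw [hz]; exact (isSUnit_iff_mem_sUnit y₀).2 hy₀mem, L, hLS, by rw [hz]; exact (y₀ : ↥L).2⟩
  let a : ESrep S := (Additive.ofMul (⟨z, hzES⟩ : ES S) : Additive (ES S))
  have ha : ∀ u ∈ π.ker, (ESrep S).ρ u a = a := by
    intro u hu
    have hu' : u ∈ L.fixingSubgroup := hker ▸ hu
    have h1 : u ((y₀ : ↥L) : Qbar) = ((y₀ : ↥L) : Qbar) :=
      (IntermediateField.mem_fixingSubgroup_iff _ _).1 hu' _ (y₀ : ↥L).2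
    show (Additive.ofMul (u • (⟨z, hzES⟩ : ES S)) : Additive (ES S)) = Additive.ofMul ⟨z, hzES⟩
    congr 1
    apply Subtype.ext
    apply Units.ext
    exact h1
  refine ⟨InvMod.mk (hπ := hπ) a ha, ?_⟩
  apply sUnit_ext
  apply Subtype.ext
  show evalQ π hπ (InvMod.mk (hπ := hπ) a ha) = _
  unfold evalQ eunit
  rw [InvMod.fn_mk]
  rfl

/-- `(E_S)^{ker π} ≃ 𝒪_{L,T}^×` -/
def sUnitEquiv (hLS : L.IsUnramifiedOutside S) :
    InvMod π hπ (ESrep S) ≃+ Additive (sUnit (TL S L)) :=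
  AddEquiv.ofBijective (toSUnit L hker) ⟨toSUnit_injective L hker, toSUnit_surjective L hker hLS⟩

lemma sUnitEquiv_apply (hLS : L.IsUnramifiedOutside S) (x : InvMod π hπ (ESrep S)) :
    sUnitEquiv L hker hLS x = toSUnit L hker x := rfl

/-- equivariance -/
lemma toSUnit_gsm (g : GQ) (x : InvMod π hπ (ESrep S)) :
    toSUnit L hker (gsm (π g) x) = sUnitActL tStable (S55lib.resL L g) (toSUnit L hker x) := by
  apply sUnit_ext
  rw [coe_sUnitActL, coe_toSUnit, coe_toSUnit]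
  apply Subtype.ext
  rw [resL_apply]
  exact evalQ_gsm g x

end Equiv

end Fermat.Agent.S56lib.GU
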