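/-
S56lib / GU / Final (lead).  **WP3b = `EulerSpec.GlobalUnits` modulo the `Γ`-set structure of the places.**

`π : G_ℚ →* Γ` onto, `L` the field cut out by `ker π` (finite Galois, unramified outside `S`), `T` the primes
of `L` above `S`, `PlΓ π L hπ hker S` := helper2's `EulerG.Pl T = T ⊔ {infinite places of L}` with the action
of `Γ ≃ Gal(L/ℚ)` (`smul_def : π g • w = plAct tStable (resL L g) w`).  Then

  `PGood (ZG Γ) p (InvMod π hπ (ESrep S))`  and
  `δ_ψ((E_S)^{ker π}) = ψ(𝔽_p) − ψ(𝔽_p[PlΓ])`  for every additive invariant `ψ`.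

WP3a (helper7) identifies `ψ(𝔽_p[PlΓ])` with `∑_{q ∈ S} ψ(𝔽_p[Γ/D_q]) + ψ(𝔽_p[Γ/⟨π c⟩])` (e.g. via
`Euler.perm_bn`: equal fixed-point counts suffice).
-/
import Mathlib
import Fermat.Agent.S56lib.GU.Abstract
import Fermat.Agent.S56lib.GU.Units

set_option autoImplicit false
set_option linter.unusedSectionVars false
set_option linter.style.haveILetI false

noncomputable section

namespace Fermat.Agent.S56lib.GU

open Fermat.Agent.S55lib Fermat.Agent.S56lib.Euler Fermat.Agent.S56lib.EulerG Function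
  NumberField IsDedekindDomain Fermat.Agent.S55lib.FirstIneq

variable {Γ : Type} [Group Γ] (π : GQ →* Γ)
  (L : FieldQ) [FiniteDimensional ℚ L] [Normal ℚ L]
  (hπ : Surjective π) (hker : L.fixingSubgroup = π.ker) (S : Finset Nat.Primes)

/-- the places of `L` above `S ∪ {∞}`, as a `Γ`-set -/
def PlΓ (_hπ : Surjective π) (_hker : L.fixingSubgroup = π.ker) (S : Finset Nat.Primes) : Type :=
  Pl (TL S L)

instance : Fintype (PlΓ π L hπ hker S) := inferInstanceAs (Fintype (Pl (TL S L)))

instance plΓAction : MulAction Γ (PlΓ π L hπ hker S) where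
  smul γ w := plAct (tStable (S := S) (L := L)) (gammaEquiv L hπ hker γ) w
  one_smul w := by
    show plAct tStable (gammaEquiv L hπ hker 1) w = w
    rw [map_one]
    exact plAct_one tStable w
  mul_smul γ γ' w := by
    show plAct tStable (gammaEquiv L hπ hker (γ * γ')) w =
      plAct tStable (gammaEquiv L hπ hker γ) (plAct tStable (gammaEquiv L hπ hker γ') w)
    rw [map_mul]
    exact plAct_mul tStable _ _ w

/-- the underlying place -/
def PlΓ.toPl (w : PlΓ π L hπ hker S) : Pl (TL S L) := w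

/-- the place as an element of the `Γ`-set -/
def PlΓ.ofPl (w : Pl (TL S L)) : PlΓ π L hπ hker S := w

lemma PlΓ.smul_def (g : GQ) (w : PlΓ π L hπ hker S) :
    (π g • w : PlΓ π L hπ hker S) = PlΓ.ofPl π L hπ hker S
      (plAct (tStable (S := S) (L := L)) (S55lib.resL L g) (PlΓ.toPl π L hπ hker S w)) := by
  show plAct tStable (gammaEquiv L hπ hker (π g)) w = _
  rw [gammaEquiv_apply]
  rfl

variable {π L hπ hker S}

/-- **WP3b.** -/
theorem delta_invMod_ESrep (p : ℕ) [hp : Fact p.Prime] (hLS : L.IsUnramifiedOutside S) :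
    PGood (ZG Γ) p (InvMod π hπ (ESrep S)) ∧ ∀ ψ : AddInvariant (ZG Γ) p,
      delta (ZG Γ) p (InvMod π hπ (ESrep S)) ψ =
        ψ.val (PermMod Γ (ZMod p) (Γ ⧸ (⊤ : Subgroup Γ))) -
          ψ.val (PermMod Γ (ZMod p) (PlΓ π L hπ hker S)) := by
  classical
  obtain ⟨u₀, hu₀, hinj₀, hfin₀⟩ := exists_sUnit_isogeny (K := ℚ) (tStable (S := S) (L := L))
  let e := sUnitEquiv (hπ := hπ) L hker hLS
  let u : PlΓ π L hπ hker S → InvMod π hπ (ESrep S) := fun w => e.symm (u₀ w)
  have hu : ∀ (γ : Γ) (w : PlΓ π L hπ hker S), u (γ • w) = gsm γ (u w) := by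
    intro γ w
    obtain ⟨g, rfl⟩ := hπ γ
    apply e.injective
    show e (e.symm (u₀ (π g • w))) = e (gsm (π g) (e.symm (u₀ w)))
    rw [AddEquiv.apply_symm_apply, sUnitEquiv_apply, toSUnit_gsm, ← sUnitEquiv_apply L hker hLS,
      AddEquiv.apply_symm_apply, PlΓ.smul_def]
    exact hu₀ (S55lib.resL L g) w
  -- transport of the isogeny
  let E : (Additive (sUnit (TL S L)) × ℤ) ≃ₗ[ℤ] (InvMod π hπ (ESrep S) × ℤ) :=
    (e.symm.prodCongr (AddEquiv.refl ℤ)).toIntLinearEquiv
  have hcomp : ∀ a : PlΓ π L hπ hker S → ℤ, isogMap u a = E (isogMap u₀ a) := by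
    intro a
    rw [isogMap_apply, isogMap_apply]
    refine Prod.ext ?_ rfl
    show ∑ w, a w • e.symm (u₀ w) = e.symm (∑ w, a w • u₀ w)
    rw [map_sum]
    refine Finset.sum_congr rfl fun w _ => ?_
    rw [map_zsmul]
  have hinj : Injective (isogMap u) := by
    intro a b h
    rw [hcomp, hcomp] at h
    exact hinj₀ (E.injective h)
  have hmap : (LinearMap.range (isogMap u₀)).map E.toLinearMap = LinearMap.range (isogMap u) := by
    ext y
    constructor
    · rintro ⟨_, ⟨a, rfl⟩, rfl⟩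
      exact ⟨a, hcomp a⟩
    · rintro ⟨a, rfl⟩
      exact ⟨isogMap u₀ a, ⟨a, rfl⟩, (hcomp a).symm⟩
  have hfin : Finite ((InvMod π hπ (ESrep S) × ℤ) ⧸ LinearMap.range (isogMap u)) :=
    Finite.of_equiv _ (Submodule.Quotient.equiv _ _ E hmap).toEquiv
  exact delta_of_isogeny p u hu hinj hfin

/-- the field cut out by an open normal subgroup of `G_S`, with everything `delta_invMod_ESrep` needs -/
theorem exists_kerField (hopen : (basisS S).IsOpen π.ker) :
    ∃ (L : FieldQ) (_ : FiniteDimensional ℚ L) (_ : Normal ℚ L),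
      L.fixingSubgroup = π.ker ∧ L.IsUnramifiedOutside S :=
  ⟨kerField π, kerField_finiteDimensional hopen, kerField_normal hopen,
    fixingSubgroup_kerField hopen, kerField_isUnramifiedOutside hopen⟩

end Fermat.Agent.S56lib.GU
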