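/-
S56lib / GU / Spec (lead).  **WP3 closed: the literal body of `EulerSpec.GlobalUnits p S complexConjugation`**
(helper1's spec for the global units), from WP3b (`GU.delta_invMod_ESrep`) and WP3a (helper7's
`PT9a.val_permMod_places`).  Not even `ζ_p ∈ L`, `p ∈ S` or `p` odd is needed.
-/
import Mathlib
import Fermat.Agent.S56lib.GU.Final
import Fermat.Agent.S56lib.PT9a.PlacesPerm

set_option autoImplicit false
set_option linter.unusedSectionVars false
set_option linter.style.haveILetI false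

noncomputable section

namespace Fermat.Agent.S56lib.GU

open Fermat.Agent.S55lib Fermat.Agent.S56lib.Euler Fermat.Agent.S56lib.EulerG Function

/-- **WP3 = `EulerSpec.GlobalUnits p S complexConjugation`** (body written out). -/
theorem globalUnits (p : ℕ) [Fact p.Prime] (S : Finset Nat.Primes) :
    ∀ (Γ : Type) [Group Γ] [Finite Γ] (π : GQ →* Γ) (hπ : Surjective π),
      (basisS S).IsOpen π.ker →
      PGood (ZG Γ) p (InvMod π hπ (ESrep S)) ∧
      ∀ ψ : AddInvariant (ZG Γ) p,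
        delta (ZG Γ) p (InvMod π hπ (ESrep S)) ψ =
          ψ.val (PermMod Γ (ZMod p) (Γ ⧸ (⊤ : Subgroup Γ)))
            - ∑ q : S, ψ.val (PermMod Γ (ZMod p) (Γ ⧸ (π.comp (rloc q.1)).range))
            - ψ.val (PermMod Γ (ZMod p) (Γ ⧸ Subgroup.zpowers (π complexConjugation))) := by
  intro Γ _ _ π hπ hopen
  obtain ⟨L, hfd, hn, hker, hLS⟩ := exists_kerField (S := S) hopen
  haveI := hfd
  haveI := hn
  obtain ⟨hgood, hδ⟩ := delta_invMod_ESrep (π := π) (L := L) (hπ := hπ) (hker := hker) p hLS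
  refine ⟨hgood, fun ψ => ?_⟩
  rw [hδ ψ]
  letI iact : MulAction Γ (Pl (FirstIneq.primesAbove L S)) := plΓAction π L hπ hker S
  have h := PT9a.val_permMod_places (L := L) (S := S) (π := π) hπ hker.le
    (fun g w => PlΓ.smul_def π L hπ hker S g w) ψ
  have h' : ψ.val (PermMod Γ (ZMod p) (PlΓ π L hπ hker S)) =
      ∑ q : S, ψ.val (PermMod Γ (ZMod p) (Γ ⧸ (π.comp (rloc q.1)).range))
        + ψ.val (PermMod Γ (ZMod p) (Γ ⧸ Subgroup.zpowers (π complexConjugation))) := h
  rw [h']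
  ring

/-- the same with the (unused) hypothesis `ζ_p ∈ L` of `EulerSpec.GlobalUnits`: this is LITERALLY
`EulerSpec.GlobalUnits p S complexConjugation` unfolded -/
theorem globalUnits_spec (p : ℕ) [Fact p.Prime] (S : Finset Nat.Primes) :
    ∀ (Γ : Type) [Group Γ] [Finite Γ] (π : GQ →* Γ) (hπ : Surjective π),
      (basisS S).IsOpen π.ker → (∀ u ∈ π.ker, ∀ μ : Qbar, μ ^ p = 1 → u μ = μ) →
      PGood (ZG Γ) p (InvMod π hπ (ESrep S)) ∧
      ∀ ψ : AddInvariant (ZG Γ) p,
        delta (ZG Γ) p (InvMod π hπ (ESrep S)) ψ =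
          ψ.val (PermMod Γ (ZMod p) (Γ ⧸ (⊤ : Subgroup Γ)))
            - ∑ q : S, ψ.val (PermMod Γ (ZMod p) (Γ ⧸ (π.comp (rloc q.1)).range))
            - ψ.val (PermMod Γ (ZMod p) (Γ ⧸ Subgroup.zpowers (π complexConjugation))) :=
  fun Γ _ _ π hπ hopen _ => globalUnits p S Γ π hπ hopen

end Fermat.Agent.S56lib.GU
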